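import Fermat.Agent.G.Per.Fg
import Fermat.Agent.G.Per.Comm
import Fermat.Agent.G.Per.Stable

/-!
# S41: lattice facts for `L_M = gprHomPE M ℤ`

* `s41lat_exists_smul_of_cast` : a `ℤ`-valued character whose reduction mod `p` vanishes is `p` times
  a character.
* `s41lat_mem_of_smul` : `gprHomPE M ℤ` is saturated in `Hom(Γ₀(M)^ab, ℤ)`.
* `gprHomPE M ℤ` is a finite free `ℤ`-module.
* `s41lat_gprT_comm` : the `T_ℓ` commute on `gprHomPE M A` for `A = ℤ` and `A = ZMod p`-free...
  (here: `A = ℤ`, from the complex case `gprT_comm`).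
-/

set_option autoImplicit false

noncomputable section

namespace Fermat.Agent.S41

open CongruenceSubgroup Fermat.Agent.S16LB Fermat.Agent.G
open scoped MatrixGroups

/-- a `ℤ`-valued additive map whose reduction mod `p` vanishes is `p` times an additive map. -/
theorem s41lat_exists_smul_of_cast {H : Type*} [AddCommGroup H] {p : ℕ} (hp : p ≠ 0)
    (x : H →+ ℤ) (h : (Int.castAddHom (ZMod p)).comp x = 0) :
    ∃ w : H →+ ℤ, x = (p : ℤ) • w := by
  have hdvd : ∀ a : H, (p : ℤ) ∣ x a := by
    intro a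
    have := DFunLike.congr_fun h a
    rw [AddMonoidHom.comp_apply, AddMonoidHom.zero_apply, Int.coe_castAddHom] at this
    exact (ZMod.intCast_zmod_eq_zero_iff_dvd _ _).mp this
  have hp' : (p : ℤ) ≠ 0 := by exact_mod_cast hp
  refine ⟨AddMonoidHom.mk' (fun a => x a / p) ?_, ?_⟩
  · intro a b
    rw [map_add, Int.add_ediv_of_dvd_left (hdvd a)]
  · refine AddMonoidHom.ext fun a => ?_
    rw [AddMonoidHom.smul_apply, AddMonoidHom.mk'_apply, smul_eq_mul,
      Int.mul_ediv_cancel' (hdvd a)]

/-- reduction mod `p` of a multiple of `p` vanishes. -/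
theorem s41lat_cast_smul {H : Type*} [AddCommGroup H] (p : ℕ) (w : H →+ ℤ) :
    (Int.castAddHom (ZMod p)).comp ((p : ℤ) • w) = 0 := by
  refine AddMonoidHom.ext fun a => ?_
  rw [AddMonoidHom.comp_apply, AddMonoidHom.smul_apply, AddMonoidHom.zero_apply,
    Int.coe_castAddHom, smul_eq_mul]
  push_cast
  rw [ZMod.natCast_self, zero_mul]

/-- `gprHomPE M ℤ` is saturated. -/
theorem s41lat_mem_of_smul {M : ℕ} {m : ℤ} (hm : m ≠ 0) {w : s16lbAb M →+ ℤ}
    (h : m • w ∈ gprHomPE M ℤ) : w ∈ gprHomPE M ℤ := by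
  intro γ hγ
  have := h γ hγ
  rw [AddMonoidHom.smul_apply, smul_eq_mul] at this
  exact (mul_eq_zero.mp this).resolve_left hm

/-- `Hom(H, ℤ)` is torsion-free. -/
instance s41lat_torsionFree_hom (H : Type*) [AddCommGroup H] : IsAddTorsionFree (H →+ ℤ) where
  nsmul_right_injective n hn x y h := by
    refine AddMonoidHom.ext fun a => ?_
    have := DFunLike.congr_fun h a
    simp only [AddMonoidHom.smul_apply, nsmul_eq_mul] at this
    have hn' : (n : ℤ) ≠ 0 := by exact_mod_cast hn
    exact mul_left_cancel₀ hn' this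

section Finite

variable (M : ℕ) [NeZero M]

instance s41lat_finite_ab : Module.Finite ℤ (s16lbAb M) :=
  Module.Finite.iff_addGroup_fg.mpr (gpr_ab_fg M)

/-- `Hom(Γ₀(M)^ab, ℤ)` is a finite `ℤ`-module. -/
instance s41lat_finite_hom : Module.Finite ℤ (s16lbAb M →+ ℤ) := by
  classical
  obtain ⟨S, hS⟩ := (Module.Finite.fg_top : (⊤ : Submodule ℤ (s16lbAb M)).FG)
  -- evaluation at the generators
  let ev : (s16lbAb M →+ ℤ) →ₗ[ℤ] (S → ℤ) :=
    { toFun := fun x s => x s.1
      map_add' := fun x y => by funext s; rfl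
      map_smul' := fun m x => by funext s; rfl }
  have hev : Function.Injective ev := by
    intro x y hxy
    have hxy' : ∀ s ∈ S, x s = y s := fun s hs => congrFun hxy ⟨s, hs⟩
    have : (x.toIntLinearMap : s16lbAb M →ₗ[ℤ] ℤ) = y.toIntLinearMap := by
      apply LinearMap.ext_on_range (v := fun s : S => (s : s16lbAb M))
      · rw [Subtype.range_coe_subtype]
        simpa using hS
      · intro s
        exact hxy' s.1 s.2
    exact AddMonoidHom.ext fun a => LinearMap.congr_fun this a
  exact Module.Finite.of_injective ev hev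

instance s41lat_finite_homPE : Module.Finite ℤ ↥(gprHomPE M ℤ) :=
  Module.Finite.of_injective (AddSubgroup.toIntSubmodule (gprHomPE M ℤ)).subtype
    Subtype.val_injective

instance s41lat_free_homPE : Module.Free ℤ ↥(gprHomPE M ℤ) := inferInstance

end Finite

/-- complexification of an integral character. -/
def s41latC {H : Type*} [AddCommGroup H] (x : H →+ ℤ) : H →+ ℂ := (Int.castAddHom ℂ).comp x

theorem s41latC_apply {H : Type*} [AddCommGroup H] (x : H →+ ℤ) (a : H) :
    s41latC x a = (x a : ℂ) := rfl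

theorem s41latC_injective {H : Type*} [AddCommGroup H] :
    Function.Injective (s41latC : (H →+ ℤ) → (H →+ ℂ)) := by
  intro x y h
  refine AddMonoidHom.ext fun a => ?_
  have := DFunLike.congr_fun h a
  rw [s41latC_apply, s41latC_apply] at this
  exact_mod_cast this

/-- the `T_ℓ` commute on `gprHomPE M ℤ`. -/
theorem s41lat_gprT_comm (M : ℕ) [NeZero M] (ℓ ℓ' : ℕ) {x : s16lbAb M →+ ℤ}
    (hx : x ∈ gprHomPE M ℤ) :
    (x.comp (gprT M ℓ)).comp (gprT M ℓ') = (x.comp (gprT M ℓ')).comp (gprT M ℓ) := by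
  apply s41latC_injective
  have := gprT_comm M ℓ ℓ' (ψ := s41latC x) (gpr_postcomp_mem_homPE _ hx)
  exact this

end Fermat.Agent.S41
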