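import Fermat.Agent.S41.Spec
import Fermat.Agent.S41.Lat
import Fermat.Agent.S41.HK.Main
import Fermat.Agent.S41.ES.Main
import Fermat.Agent.G.Per.Period
import Fermat.Prelude.Def_FreyPackage_LevelRaising

/-!
# S41 (level raising): the top assembly

`s41top_main` is the frozen statement S41, assembled from
* `Spec.lean` : ASM-L / ASM-D / ASM-U (abstract linear algebra), PD (Poincaré duality pairing),
  IH (Ihara's lemma mod `p`),
* helper1's package HK (`HK/Main.lean`), helper22's package ES (`ES/Main.lean`),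
* G/Per (`gpr_period_eigen`, `gprT_comm`).
-/

set_option autoImplicit false

noncomputable section

namespace Fermat.Agent.S41

open WeierstrassCurve WeierstrassCurve.Affine
open CongruenceSubgroup Fermat.Agent.S16LB Fermat.Agent.G ModularCurve ModularCurve.Period
open ModularFormClass
open scoped MatrixGroups

/-! ## Step C: from a new lattice vector to the eigenform -/

section StepC

variable {N q : ℕ} [NeZero N] [Fact q.Prime] (D : S41hkAL N q)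

/-- the `q`-new lattice: `Hom_pe(Γ₀(Nq), ℤ) ∩ ker α^t`. -/
def s41topK : AddSubgroup (s16lbAb (N * q) →+ ℤ) :=
  gprHomPE (N * q) ℤ ⊓ (D.alphaT ℤ).ker

theorem s41top_mem_K {y : s16lbAb (N * q) →+ ℤ} :
    y ∈ s41topK D ↔ y ∈ gprHomPE (N * q) ℤ ∧ D.alphaT ℤ y = 0 := Iff.rfl

/-- the operators on `Γ₀(Nq)^ab`: `none ↦ U_q`, `some ℓ ↦ T_ℓ`. -/
def s41topOp (N q : ℕ) [Fact q.Prime] : Option ℕ → s16lbAb (N * q) →+ s16lbAb (N * q)
  | none => s41hkU (N * q) q (dvd_mul_left q N)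
  | some ℓ => gprT (N * q) ℓ

theorem s41top_gprT_zero {M ℓ : ℕ} (h : ¬ (ℓ.Prime ∧ ¬ ℓ ∣ M)) : gprT M ℓ = 0 := by
  unfold gprT
  rw [dif_neg h]

theorem s41top_K_stable (i : Option ℕ) {y : s16lbAb (N * q) →+ ℤ} (hy : y ∈ s41topK D) :
    y.comp (s41topOp N q i) ∈ s41topK D := by
  obtain ⟨hy1, hy2⟩ := hy
  have hy2' : D.alphaT ℤ y = 0 := hy2
  cases i with
  | none =>
    refine ⟨s41hk_comp_mem_homPE _ (fun x hx => s41hkU_mem_PE _ _ _ hx) hy1, ?_⟩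
    exact s41hk_ker_stable_U D hy2'
  | some ℓ =>
    refine ⟨s41hk_comp_mem_homPE _ (fun x hx => gprT_mem_PE _ _ hx) hy1, ?_⟩
    show D.alphaT ℤ (y.comp (gprT (N * q) ℓ)) = 0
    by_cases h : ℓ.Prime ∧ ¬ ℓ ∣ N * q
    · have : Fact ℓ.Prime := ⟨h.1⟩
      rw [← s41hkT_eq_gprT _ _ h.2]
      exact s41hk_ker_stable_T D ℓ h.2 hy2'
    · rw [s41top_gprT_zero h, AddMonoidHom.comp_zero, map_zero]

theorem s41top_K_comm (i j : Option ℕ) {y : s16lbAb (N * q) →+ ℤ} (hy : y ∈ s41topK D) :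
    (y.comp (s41topOp N q i)).comp (s41topOp N q j)
      = (y.comp (s41topOp N q j)).comp (s41topOp N q i) := by
  have hUT : ∀ ℓ : ℕ, (y.comp (s41hkU (N * q) q (dvd_mul_left q N))).comp (gprT (N * q) ℓ)
      = (y.comp (gprT (N * q) ℓ)).comp (s41hkU (N * q) q (dvd_mul_left q N)) := by
    intro ℓ
    by_cases h : ℓ.Prime ∧ ¬ ℓ ∣ N * q
    · rw [AddMonoidHom.comp_assoc, AddMonoidHom.comp_assoc, s41hk_U_comp_gprT h.1 h.2]
    · rw [s41top_gprT_zero h, AddMonoidHom.comp_zero, AddMonoidHom.comp_zero,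
        AddMonoidHom.zero_comp]
  cases i with
  | none =>
    cases j with
    | none => rfl
    | some ℓ => exact hUT ℓ
  | some ℓ =>
    cases j with
    | none => exact (hUT ℓ).symm
    | some ℓ' => exact s41lat_gprT_comm (N * q) ℓ ℓ' hy.1

theorem s41top_K_sat (m : ℤ) (y : s16lbAb (N * q) →+ ℤ) (hm : m ≠ 0)
    (h : m • y ∈ s41topK D) : y ∈ s41topK D := by
  obtain ⟨h1, h2⟩ := h
  refine ⟨s41lat_mem_of_smul hm h1, ?_⟩
  have h2' : D.alphaT ℤ (m • y) = 0 := h2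
  rw [D.alphaT_eq_zero_iff] at h2'
  show D.alphaT ℤ y = 0
  rw [D.alphaT_eq_zero_iff]
  have key : ∀ (V : s16lbAb N →+ s16lbAb (N * q)), (m • y).comp V = 0 → y.comp V = 0 := by
    intro V hV
    refine AddMonoidHom.ext fun a => ?_
    have := DFunLike.congr_fun hV a
    rw [AddMonoidHom.comp_apply, AddMonoidHom.smul_apply, AddMonoidHom.zero_apply,
      smul_eq_mul] at this
    rw [AddMonoidHom.comp_apply, AddMonoidHom.zero_apply]
    exact (mul_eq_zero.mp this).resolve_left hm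
  exact ⟨key _ h2'.1, key _ h2'.2⟩

/-- **Step C.** A vector of the `q`-new lattice which is not divisible by `p` and is an
eigenvector mod `p` of the `T_ℓ` (good `ℓ ∤ N q p`) with eigenvalues `a_ℓ(W)` produces the
eigenform of the conclusion of S41. -/
theorem s41top_stepC (W : WeierstrassCurve ℤ) {p : ℕ} (hp : p.Prime)
    (y : s16lbAb (N * q) →+ ℤ) (hy : y ∈ s41topK D)
    (hyp : ¬ ∃ z : s16lbAb (N * q) →+ ℤ, y = (p : ℤ) • z)
    (heig : ∀ ℓ : ℕ, ℓ.Prime → W.IsGoodPrimeFor ℓ → ¬ ℓ ∣ N * q → ℓ ≠ p →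
      ∃ z : s16lbAb (N * q) →+ ℤ, y.comp (gprT (N * q) ℓ) - (W.apOfModel ℓ : ℤ) • y = (p : ℤ) • z) :
    ∃ (g : CuspForm (CongruenceSubgroup.Gamma0 (N * q)) 2) (𝔪' : Ideal (integralClosure ℤ ℂ)),
      g.IsNormalizedEigenform ∧ 𝔪'.IsMaximal ∧ (p : integralClosure ℤ ℂ) ∈ 𝔪' ∧
      (∀ ℓ : ℕ, ℓ.Prime → W.IsGoodPrimeFor ℓ → ¬ ℓ ∣ N * q → ℓ ≠ p →
        ∃ a : integralClosure ℤ ℂ, (a : ℂ) = ModularFormClass.qCoeff g ℓ ∧
          a - ((W.apOfModel ℓ : ℤ) : integralClosure ℤ ℂ) ∈ 𝔪') ∧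
      g.IsNewAt q := by
  classical
  have hq : q.Prime := Fact.out
  have : NeZero (N * q) := ⟨Nat.mul_ne_zero (NeZero.ne N) hq.ne_zero⟩
  -- Deligne–Serre lifting
  let J : Set (Option ℕ) :=
    {i | ∃ ℓ : ℕ, i = some ℓ ∧ ℓ.Prime ∧ W.IsGoodPrimeFor ℓ ∧ ¬ ℓ ∣ N * q ∧ ℓ ≠ p}
  let n : Option ℕ → ℤ := fun i => i.elim 0 (fun ℓ => W.apOfModel ℓ)
  obtain ⟨c, lam, 𝔪', hc0, hkill, hceig, hmax', hpm', hcong'⟩ :=
    s41as_lift (gpr_ab_fg (N * q)) (s41topOp N q) (s41topK D)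
      (fun i y hy => s41top_K_stable D i hy) (fun i j y hy => s41top_K_comm D i j hy)
      (s41top_K_sat D) hp J n y hy hyp
      (by
        rintro i ⟨ℓ, rfl, h1, h2, h3, h4⟩
        exact heig ℓ h1 h2 h3 h4)
  -- `c` is parabolic
  have hcPE : c ∈ gprHomPE (N * q) ℂ := fun γ hγ => hkill _ fun k hk => hk.1 γ hγ
  have hcpar : c.comp (s16lbCls (N * q)) ∈ parabolicHoms ℂ (Gamma0 (N * q)) ℂ := by
    rw [mem_parabolicHoms_iff]
    intro γ hγ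
    rw [AddMonoidHom.comp_apply]
    refine hcPE γ ?_
    unfold gprIsPE
    rw [hγ]
  -- `U_q² = 1` on `c`
  set U := s41hkU (N * q) q (dvd_mul_left q N) with hU
  have hUU : (c.comp U).comp U = c := by
    refine AddMonoidHom.ext fun a => ?_
    rw [AddMonoidHom.comp_apply, AddMonoidHom.comp_apply]
    have h0 : c (U (U a) - a) = 0 := by
      refine hkill _ fun k hk => ?_
      have := DFunLike.congr_fun (s41hk_ker_UU D (show D.alphaT ℤ k = 0 from hk.2)) a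
      rw [AddMonoidHom.comp_apply, AddMonoidHom.comp_apply] at this
      rw [map_sub, this, sub_self]
    rw [map_sub, sub_eq_zero] at h0
    exact h0
  have hcU : c.comp U = (lam none : ℂ) • c := hceig none
  have hε : (lam none : ℂ) ^ 2 = 1 := by
    obtain ⟨a, ha⟩ : ∃ a, c a ≠ 0 := by
      by_contra hcon
      exact hc0 (AddMonoidHom.ext fun a => by_contra fun h => hcon ⟨a, h⟩)
    have h1 := DFunLike.congr_fun hUU a
    rw [hcU] at h1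
    have h2 : ((lam none : ℂ) • c).comp U = (lam none : ℂ) • c.comp U := by
      refine AddMonoidHom.ext fun b => rfl
    rw [h2, hcU] at h1
    simp only [AddMonoidHom.smul_apply, smul_eq_mul] at h1
    have h3 : ((lam none : ℂ) ^ 2 - 1) * c a = 0 := by linear_combination h1
    rcases mul_eq_zero.mp h3 with h | h
    · linear_combination h
    · exact absurd h ha
  -- Eichler–Shimura
  obtain ⟨g, hg, hgT, hgq⟩ :=
    s41es_main (M := N * q) (dvd_mul_left q N) {ℓ | ℓ.Prime ∧ ¬ ℓ ∣ N * q} (fun ℓ hℓ => hℓ) c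
      hcpar hc0 (fun ℓ => (lam (some ℓ) : ℂ)) (fun ℓ _ => hceig (some ℓ)) (lam none : ℂ) hcU
  refine ⟨g, 𝔪', hg, hmax', hpm', ?_, ?_⟩
  · intro ℓ h1 h2 h3 h4
    refine ⟨lam (some ℓ), (hgT ℓ ⟨h1, h3⟩).symm, ?_⟩
    exact hcong' (some ℓ) ⟨ℓ, rfl, h1, h2, h3, h4⟩
  · show ModularFormClass.qCoeff g q ^ 2 = 1
    rw [hgq, hε]

end StepC


/-! ## Step A: from the eigenform `f` to an integral eigenvector mod `p` -/

section StepA

/-- **Step A.** The eigenform `f` of level `N` gives `x₀ ∈ Hom_pe(Γ₀(N), ℤ)`, not divisible by `p`,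
an eigenvector mod `p` of the `T_ℓ` with eigenvalues `a_ℓ(W)` and of `T_q` with eigenvalue
`ε (q + 1)`, `ε = ± 1`. -/
theorem s41top_stepA {W : WeierstrassCurve ℤ} {p N q : ℕ} (hp : p.Prime) [NeZero N]
    (hq : q.Prime) (hqN : ¬ q ∣ N)
    (f : CuspForm (CongruenceSubgroup.Gamma0 N) 2) (𝔪 : Ideal (integralClosure ℤ ℂ))
    (hf : f.IsNormalizedEigenform) (hmax : 𝔪.IsMaximal) (hpm : (p : integralClosure ℤ ℂ) ∈ 𝔪)
    (hcong : ∀ ℓ : ℕ, ℓ.Prime → W.IsGoodPrimeFor ℓ → ¬ ℓ ∣ N → ℓ ≠ p →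
      ∃ a : integralClosure ℤ ℂ, (a : ℂ) = ModularFormClass.qCoeff f ℓ ∧
        a - ((W.apOfModel ℓ : ℤ) : integralClosure ℤ ℂ) ∈ 𝔪)
    (hLR : ∃ a : integralClosure ℤ ℂ, (a : ℂ) = ModularFormClass.qCoeff f q ∧
      a ^ 2 - ((q : integralClosure ℤ ℂ) + 1) ^ 2 ∈ 𝔪) :
    ∃ (ε : ℤ) (x₀ : s16lbAb N →+ ℤ), ε ^ 2 = 1 ∧ x₀ ∈ gprHomPE N ℤ ∧
      (¬ ∃ z : s16lbAb N →+ ℤ, x₀ = (p : ℤ) • z) ∧
      (∀ ℓ : ℕ, ℓ.Prime → W.IsGoodPrimeFor ℓ → ¬ ℓ ∣ N → ℓ ≠ p →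
        ∃ z : s16lbAb N →+ ℤ, x₀.comp (gprT N ℓ) - (W.apOfModel ℓ : ℤ) • x₀ = (p : ℤ) • z) ∧
      ∃ z : s16lbAb N →+ ℤ, x₀.comp (gprT N q) - (ε * ((q : ℤ) + 1)) • x₀ = (p : ℤ) • z := by
  classical
  obtain ⟨hv1, hv2, hv3⟩ := gpr_period_eigen hf
  set v := s16lbDesc (periodMap N f) with hv
  obtain ⟨aq, haq, haqm⟩ := hLR
  have hprime : 𝔪.IsPrime := hmax.isPrime
  -- the sign
  obtain ⟨ε, hε, hεm⟩ : ∃ ε : ℤ, ε ^ 2 = 1 ∧
      aq - ((ε * ((q : ℤ) + 1) : ℤ) : integralClosure ℤ ℂ) ∈ 𝔪 := by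
    have hfac : (aq - ((q : integralClosure ℤ ℂ) + 1)) * (aq + ((q : integralClosure ℤ ℂ) + 1)) ∈ 𝔪 := by
      have : (aq - ((q : integralClosure ℤ ℂ) + 1)) * (aq + ((q : integralClosure ℤ ℂ) + 1))
          = aq ^ 2 - ((q : integralClosure ℤ ℂ) + 1) ^ 2 := by ring
      rw [this]
      exact haqm
    rcases hprime.mem_or_mem hfac with h | h
    · refine ⟨1, by norm_num, ?_⟩
      have : ((1 * ((q : ℤ) + 1) : ℤ) : integralClosure ℤ ℂ) = (q : integralClosure ℤ ℂ) + 1 := by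
        push_cast; ring
      rw [this]
      exact h
    · refine ⟨-1, by norm_num, ?_⟩
      have : aq - (((-1) * ((q : ℤ) + 1) : ℤ) : integralClosure ℤ ℂ)
          = aq + ((q : integralClosure ℤ ℂ) + 1) := by
        push_cast; ring
      rw [this]
      exact h
  -- the index type
  let I₀ : Type := {ℓ : ℕ // ℓ.Prime ∧ W.IsGoodPrimeFor ℓ ∧ ¬ ℓ ∣ N ∧ ℓ ≠ p}
  let τ : Option I₀ → s16lbAb N →+ s16lbAb N := fun i => i.elim (gprT N q) (fun ℓ => gprT N ℓ.1)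
  let a : Option I₀ → integralClosure ℤ ℂ :=
    fun i => i.elim aq (fun ℓ => (hcong ℓ.1 ℓ.2.1 ℓ.2.2.1 ℓ.2.2.2.1 ℓ.2.2.2.2).choose)
  let n : Option I₀ → ℤ := fun i => i.elim (ε * ((q : ℤ) + 1)) (fun ℓ => W.apOfModel ℓ.1)
  have ha : ∀ ℓ : I₀, ((a (Option.some ℓ) : integralClosure ℤ ℂ) : ℂ) = ModularFormClass.qCoeff f ℓ.1 ∧
      a (Option.some ℓ) - ((W.apOfModel ℓ.1 : ℤ) : integralClosure ℤ ℂ) ∈ 𝔪 :=
    fun ℓ => (hcong ℓ.1 ℓ.2.1 ℓ.2.2.1 ℓ.2.2.2.1 ℓ.2.2.2.2).choose_spec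
  obtain ⟨x, hxS, hxp, hxeig⟩ := s41as_descend (gpr_ab_fg N) τ
    {x | ∃ γ : Gamma0 N, gprIsPE γ ∧ s16lbCls N (Additive.ofMul γ) = x} a v hv2
    (by
      rintro _ ⟨γ, hγ, rfl⟩
      exact hv1 γ hγ)
    (by
      intro i
      cases i with
      | none =>
        show v.comp (gprT N q) = (aq : ℂ) • v
        rw [haq]
        exact hv3 q hq hqN
      | some ℓ =>
        show v.comp (gprT N ℓ.1) = ((a (Option.some ℓ) : integralClosure ℤ ℂ) : ℂ) • v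
        rw [(ha ℓ).1]
        exact hv3 ℓ.1 ℓ.2.1 ℓ.2.2.2.1)
    hp 𝔪 hmax hpm n
    (by
      intro i
      cases i with
      | none => exact hεm
      | some ℓ => exact (ha ℓ).2)
  refine ⟨ε, x, hε, fun γ hγ => hxS _ ⟨γ, hγ, rfl⟩, hxp, ?_, ?_⟩
  · intro ℓ h1 h2 h3 h4
    exact hxeig (Option.some ⟨ℓ, h1, h2, h3, h4⟩)
  · exact hxeig Option.none

end StepA


/-! ## Step B: the lattice argument -/

section StepB

/-- precomposition as a map between the lattices `Hom_pe(_, ℤ)`. -/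
def s41topPre {M₁ M₂ : ℕ} (f : s16lbAb M₂ →+ s16lbAb M₁)
    (hf : ∀ x ∈ gprPE M₂, f x ∈ gprPE M₁) : ↥(gprHomPE M₁ ℤ) →+ ↥(gprHomPE M₂ ℤ) where
  toFun x := ⟨x.1.comp f, s41hk_comp_mem_homPE f hf x.2⟩
  map_zero' := Subtype.ext (AddMonoidHom.zero_comp f)
  map_add' x y := Subtype.ext (AddMonoidHom.add_comp x.1 y.1 f)

@[simp] theorem s41topPre_coe {M₁ M₂ : ℕ} (f : s16lbAb M₂ →+ s16lbAb M₁)
    (hf : ∀ x ∈ gprPE M₂, f x ∈ gprPE M₁) (x : ↥(gprHomPE M₁ ℤ)) :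
    ((s41topPre f hf x : ↥(gprHomPE M₂ ℤ)) : s16lbAb M₂ →+ ℤ) = x.1.comp f := rfl

/-- `T_ℓ` on the lattice. -/
def s41topT (M ℓ : ℕ) : ↥(gprHomPE M ℤ) →+ ↥(gprHomPE M ℤ) :=
  s41topPre (gprT M ℓ) (fun _ hx => gprT_mem_PE M ℓ hx)

/-- the pairing on the lattice. -/
def s41topForm (M : ℕ) [NeZero M] : ↥(gprHomPE M ℤ) →+ ↥(gprHomPE M ℤ) →+ ℤ :=
  AddMonoidHom.mk' (fun x => AddMonoidHom.mk' (fun y => s41pdbForm M x.1 y.1)
    (fun y y' => s41pdb_add_right x.2 y.2 y'.2))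
    (fun x x' => AddMonoidHom.ext fun y => s41pdb_add_left x.2 x'.2 y.2)

@[simp] theorem s41topForm_apply (M : ℕ) [NeZero M] (x y : ↥(gprHomPE M ℤ)) :
    s41topForm M x y = s41pdbForm M x.1 y.1 := rfl

/-- the pairing on a product. -/
def s41topForm2 (M : ℕ) [NeZero M] :
    (↥(gprHomPE M ℤ) × ↥(gprHomPE M ℤ)) →+ (↥(gprHomPE M ℤ) × ↥(gprHomPE M ℤ)) →+ ℤ :=
  AddMonoidHom.mk' (fun x => AddMonoidHom.mk' (fun y => s41topForm M x.1 y.1 + s41topForm M x.2 y.2)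
    (fun y y' => by
      simp only [Prod.fst_add, Prod.snd_add, map_add]
      abel))
    (fun x x' => AddMonoidHom.ext fun y => by
      simp only [Prod.fst_add, Prod.snd_add, map_add, AddMonoidHom.mk'_apply,
        AddMonoidHom.add_apply]
      abel)

@[simp] theorem s41topForm2_apply (M : ℕ) [NeZero M]
    (x y : ↥(gprHomPE M ℤ) × ↥(gprHomPE M ℤ)) :
    s41topForm2 M x y = s41pdbForm M x.1.1 y.1.1 + s41pdbForm M x.2.1 y.2.1 := rfl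

theorem s41topForm_nondeg (M : ℕ) [NeZero M] {p : ℕ} (hp : p.Prime) (hp2 : p ≠ 2)
    (x : ↥(gprHomPE M ℤ)) (h : ∀ y, (p : ℤ) ∣ s41topForm M x y) : ∃ z, x = (p : ℤ) • z := by
  obtain ⟨z, hz⟩ := s41pdb_nondeg hp hp2 x.2 (fun y hy => h ⟨y, hy⟩)
  have hp0 : (p : ℤ) ≠ 0 := by exact_mod_cast hp.ne_zero
  have hzm : z ∈ gprHomPE M ℤ := s41lat_mem_of_smul hp0 (hz ▸ x.2)
  exact ⟨⟨z, hzm⟩, Subtype.ext hz⟩

variable {N q : ℕ} [NeZero N] [Fact q.Prime] (D : S41hkAL N q)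

/-- `α = a^* + b^*` on the lattices. -/
def s41topAlpha (N q : ℕ) [Fact q.Prime] :
    (↥(gprHomPE N ℤ) × ↥(gprHomPE N ℤ)) →+ ↥(gprHomPE (N * q) ℤ) :=
  (s41topPre (s41hkA N q) (fun _ hx => s41hkA_mem_PE hx)).coprod
    (s41topPre (s41hkB N q) (fun _ hx => s41hkB_mem_PE hx))

omit [NeZero N] in
theorem s41topAlpha_coe (x : ↥(gprHomPE N ℤ) × ↥(gprHomPE N ℤ)) :
    ((s41topAlpha N q x : ↥(gprHomPE (N * q) ℤ)) : s16lbAb (N * q) →+ ℤ)
      = x.1.1.comp (s41hkA N q) + x.2.1.comp (s41hkB N q) := rfl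

/-- `β = (a_*, b_*)` on the lattices. -/
def s41topBeta : ↥(gprHomPE (N * q) ℤ) →+ (↥(gprHomPE N ℤ) × ↥(gprHomPE N ℤ)) :=
  (s41topPre D.Va (fun _ hx => D.Va_mem_PE hx)).prod
    (s41topPre D.Vb (fun _ hx => D.Vb_mem_PE hx))

omit [NeZero N] in
theorem s41topBeta_fst (y : ↥(gprHomPE (N * q) ℤ)) :
    ((s41topBeta D y).1 : s16lbAb N →+ ℤ) = y.1.comp D.Va := rfl

omit [NeZero N] in
theorem s41topBeta_snd (y : ↥(gprHomPE (N * q) ℤ)) :
    ((s41topBeta D y).2 : s16lbAb N →+ ℤ) = y.1.comp D.Vb := rfl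


/-- reduction mod `p` of an integral character. -/
def s41topRed (p : ℕ) {H : Type*} [AddCommGroup H] (x : H →+ ℤ) : H →+ ZMod p :=
  (Int.castAddHom (ZMod p)).comp x

theorem s41topRed_comp (p : ℕ) {H H' : Type*} [AddCommGroup H] [AddCommGroup H'] (x : H →+ ℤ)
    (f : H' →+ H) : (s41topRed p x).comp f = s41topRed p (x.comp f) := rfl

theorem s41topRed_add (p : ℕ) {H : Type*} [AddCommGroup H] (x y : H →+ ℤ) :
    s41topRed p (x + y) = s41topRed p x + s41topRed p y :=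
  AddMonoidHom.comp_add _ _ _

theorem s41topRed_smul_p (p : ℕ) {H : Type*} [AddCommGroup H] (z : H →+ ℤ) :
    s41topRed p ((p : ℤ) • z) = 0 := s41lat_cast_smul p z

theorem s41topRed_zsmul (p : ℕ) {H : Type*} [AddCommGroup H] (m : ℤ) (x : H →+ ℤ) :
    s41topRed p (m • x) = (m : ZMod p) • s41topRed p x := by
  refine AddMonoidHom.ext fun a => ?_
  simp only [s41topRed, AddMonoidHom.comp_apply, AddMonoidHom.smul_apply, Int.coe_castAddHom,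
    smul_eq_mul]
  push_cast
  rfl

/-- **Step B.** -/
theorem s41top_stepB (E : WeierstrassCurve ℚ) [E.IsElliptic] {W : WeierstrassCurve ℤ}
    (hW : W.IsIntegralModelOf E) {p : ℕ} (hp : p.Prime) (hp2 : p ≠ 2) (hqN : ¬ q ∣ N)
    (hqp : q ≠ p) (hirr : WeierstrassCurve.Affine.Point.GaloisRepIsIrreducible (K := AlgebraicClosure ℚ) ℚ E p)
    (ε : ℤ) (x₀ : s16lbAb N →+ ℤ) (hε : ε ^ 2 = 1) (hx₀ : x₀ ∈ gprHomPE N ℤ)
    (hx₀p : ¬ ∃ z : s16lbAb N →+ ℤ, x₀ = (p : ℤ) • z)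
    (hx₀T : ∀ ℓ : ℕ, ℓ.Prime → W.IsGoodPrimeFor ℓ → ¬ ℓ ∣ N → ℓ ≠ p →
      ∃ z : s16lbAb N →+ ℤ, x₀.comp (gprT N ℓ) - (W.apOfModel ℓ : ℤ) • x₀ = (p : ℤ) • z)
    (hx₀q : ∃ z : s16lbAb N →+ ℤ,
      x₀.comp (gprT N q) - (ε * ((q : ℤ) + 1)) • x₀ = (p : ℤ) • z) :
    ∃ y : s16lbAb (N * q) →+ ℤ, y ∈ s41topK D ∧
      (¬ ∃ z : s16lbAb (N * q) →+ ℤ, y = (p : ℤ) • z) ∧
      ∀ ℓ : ℕ, ℓ.Prime → W.IsGoodPrimeFor ℓ → ¬ ℓ ∣ N * q → ℓ ≠ p →
        ∃ z : s16lbAb (N * q) →+ ℤ,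
          y.comp (gprT (N * q) ℓ) - (W.apOfModel ℓ : ℤ) • y = (p : ℤ) • z := by
  classical
  have hq : q.Prime := Fact.out
  have hN0 : 0 < N := Nat.pos_of_ne_zero (NeZero.ne N)
  have : NeZero (N * q) := ⟨Nat.mul_ne_zero (NeZero.ne N) hq.ne_zero⟩
  have hp0 : (p : ℤ) ≠ 0 := by exact_mod_cast hp.ne_zero
  let I : Type := {ℓ : ℕ // ℓ.Prime ∧ W.IsGoodPrimeFor ℓ ∧ ¬ ℓ ∣ N * q ∧ ℓ ≠ p}
  have hIN : ∀ i : I, ¬ i.1 ∣ N := fun i h => i.2.2.2.1 (dvd_mul_of_dvd_left h q)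
  let TX : I → (↥(gprHomPE N ℤ) × ↥(gprHomPE N ℤ)) →+ (↥(gprHomPE N ℤ) × ↥(gprHomPE N ℤ)) :=
    fun i => (s41topT N i.1).prodMap (s41topT N i.1)
  let TY : I → ↥(gprHomPE (N * q) ℤ) →+ ↥(gprHomPE (N * q) ℤ) := fun i => s41topT (N * q) i.1
  let n : I → ℤ := fun i => W.apOfModel i.1
  -- the hypotheses of the lattice lemma
  have hTX : ∀ i j x, TX i (TX j x) = TX j (TX i x) := by
    intro i j x
    refine Prod.ext (Subtype.ext ?_) (Subtype.ext ?_)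
    · exact s41lat_gprT_comm N j.1 i.1 x.1.2
    · exact s41lat_gprT_comm N j.1 i.1 x.2.2
  have hTY : ∀ i j y, TY i (TY j y) = TY j (TY i y) := by
    intro i j y
    exact Subtype.ext (s41lat_gprT_comm (N * q) j.1 i.1 y.2)
  have hα : ∀ i x, s41topAlpha N q (TX i x) = TY i (s41topAlpha N q x) := by
    intro i x
    refine Subtype.ext ?_
    show (x.1.1.comp (gprT N i.1)).comp (s41hkA N q) + (x.2.1.comp (gprT N i.1)).comp (s41hkB N q)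
      = (x.1.1.comp (s41hkA N q) + x.2.1.comp (s41hkB N q)).comp (gprT (N * q) i.1)
    rw [AddMonoidHom.add_comp, AddMonoidHom.comp_assoc, AddMonoidHom.comp_assoc,
      AddMonoidHom.comp_assoc, AddMonoidHom.comp_assoc,
      s41hk_A_comp_gprT i.2.1 i.2.2.2.1, s41hk_B_comp_gprT i.2.1 i.2.2.2.1 hqN]
  have hβ : ∀ i y, s41topBeta D (TY i y) = TX i (s41topBeta D y) := by
    intro i y
    refine Prod.ext (Subtype.ext ?_) (Subtype.ext ?_)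
    · show (y.1.comp (gprT (N * q) i.1)).comp D.Va = (y.1.comp D.Va).comp (gprT N i.1)
      rw [AddMonoidHom.comp_assoc, AddMonoidHom.comp_assoc,
        s41hk_Va_comp_gprT D i.2.1 i.2.2.2.1]
    · show (y.1.comp (gprT (N * q) i.1)).comp D.Vb = (y.1.comp D.Vb).comp (gprT N i.1)
      rw [AddMonoidHom.comp_assoc, AddMonoidHom.comp_assoc,
        s41hk_Vb_comp_gprT D i.2.1 i.2.2.2.1]
  have hBX : ∀ x : ↥(gprHomPE N ℤ) × ↥(gprHomPE N ℤ),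
      (∀ x', (p : ℤ) ∣ s41topForm2 N x x') → ∃ z, x = (p : ℤ) • z := by
    intro x hx
    obtain ⟨z1, hz1⟩ := s41topForm_nondeg N hp hp2 x.1 (fun y => by
      have := hx (y, 0)
      rw [s41topForm2_apply] at this
      have h0 : s41pdbForm N x.2.1 ((0 : ↥(gprHomPE N ℤ)) : s16lbAb N →+ ℤ) = 0 := by
        have := map_zero (s41topForm N x.2)
        exact this
      rw [h0, add_zero] at this
      exact this)
    obtain ⟨z2, hz2⟩ := s41topForm_nondeg N hp hp2 x.2 (fun y => by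
      have := hx (0, y)
      rw [s41topForm2_apply] at this
      have h0 : s41pdbForm N x.1.1 ((0 : ↥(gprHomPE N ℤ)) : s16lbAb N →+ ℤ) = 0 := by
        have := map_zero (s41topForm N x.1)
        exact this
      rw [h0, zero_add] at this
      exact this)
    exact ⟨(z1, z2), Prod.ext hz1 hz2⟩
  have hBY : ∀ y : ↥(gprHomPE (N * q) ℤ),
      (∀ y', (p : ℤ) ∣ s41topForm (N * q) y y') → ∃ z, y = (p : ℤ) • z :=
    fun y hy => s41topForm_nondeg (N * q) hp hp2 y hy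
  have hTXadj : ∀ i x x', s41topForm2 N (TX i x) x' = s41topForm2 N x (TX i x') := by
    intro i x x'
    rw [s41topForm2_apply, s41topForm2_apply]
    show s41pdbForm N (x.1.1.comp (gprT N i.1)) x'.1.1 + s41pdbForm N (x.2.1.comp (gprT N i.1)) x'.2.1
      = s41pdbForm N x.1.1 (x'.1.1.comp (gprT N i.1)) + s41pdbForm N x.2.1 (x'.2.1.comp (gprT N i.1))
    rw [s41pdb_T_adj i.2.1 (hIN i) x.1.2 x'.1.2, s41pdb_T_adj i.2.1 (hIN i) x.2.2 x'.2.2]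
  have hTYadj : ∀ i y y', s41topForm (N * q) (TY i y) y' = s41topForm (N * q) y (TY i y') := by
    intro i y y'
    exact s41pdb_T_adj i.2.1 i.2.2.2.1 y.2 y'.2
  have hadj : ∀ x y, s41topForm (N * q) (s41topAlpha N q x) y
      = s41topForm2 N x (s41topBeta D y) := by
    intro x y
    have h1 : s41topAlpha N q x
        = s41topPre (s41hkA N q) (fun _ hx => s41hkA_mem_PE hx) x.1
          + s41topPre (s41hkB N q) (fun _ hx => s41hkB_mem_PE hx) x.2 := rfl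
    rw [h1, map_add, AddMonoidHom.add_apply, s41topForm2_apply, s41topForm_apply,
      s41topForm_apply, s41topBeta_fst, s41topBeta_snd]
    show s41pdbForm (N * q) (x.1.1.comp (s41hkA N q)) y.1
        + s41pdbForm (N * q) (x.2.1.comp (s41hkB N q)) y.1 = _
    rw [s41pdb_A_adj D x.1.2 y.2, s41pdb_B_adj D x.2.2 y.2]
  -- (i) Ihara
  have hi : ∀ x : ↥(gprHomPE N ℤ) × ↥(gprHomPE N ℤ),
      (∃ z, s41topAlpha N q x = (p : ℤ) • z) →
      (∀ i, ∃ z, TX i x - n i • x = (p : ℤ) • z) → ∃ z, x = (p : ℤ) • z := by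
    intro x hαx hTx
    obtain ⟨zα, hzα⟩ := hαx
    have hker : (s41topRed p x.1.1).comp (s41hkA N q) + (s41topRed p x.2.1).comp (s41hkB N q)
        = 0 := by
      rw [s41topRed_comp, s41topRed_comp, ← s41topRed_add, ← s41topAlpha_coe, hzα]
      exact s41topRed_smul_p p zα.1
    have heig : ∀ (w : s16lbAb N →+ ℤ) (z : I → s16lbAb N →+ ℤ),
        (∀ i, w.comp (gprT N i.1) - n i • w = (p : ℤ) • z i) →
        ∀ ℓ : ℕ, ℓ.Prime → W.IsGoodPrimeFor ℓ → ¬ ℓ ∣ N * q → ℓ ≠ p →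
          (s41topRed p w).comp (gprT N ℓ) = ((W.apOfModel ℓ : ℤ) : ZMod p) • s41topRed p w := by
      intro w z hz ℓ h1 h2 h3 h4
      have := hz ⟨ℓ, h1, h2, h3, h4⟩
      have h5 : w.comp (gprT N ℓ) = (W.apOfModel ℓ : ℤ) • w + (p : ℤ) • z ⟨ℓ, h1, h2, h3, h4⟩ := by
        rw [← this]; abel
      rw [s41topRed_comp, h5, s41topRed_add, s41topRed_smul_p, add_zero, s41topRed_zsmul]
    choose zT hzT using hTx
    have key := s41ih_main E hW hp hp2 hN0 hqN hqp hirr (s41topRed p x.1.1) (s41topRed p x.2.1)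
      (gpr_postcomp_mem_homPE _ x.1.2) (gpr_postcomp_mem_homPE _ x.2.2) hker
      (heig x.1.1 (fun i => (zT i).1.1) (fun i => congrArg (fun u => (u.1 : ↥(gprHomPE N ℤ)).1) (hzT i)))
      (heig x.2.1 (fun i => (zT i).2.1) (fun i => congrArg (fun u => (u.2 : ↥(gprHomPE N ℤ)).1) (hzT i)))
    obtain ⟨w1, hw1⟩ := s41lat_exists_smul_of_cast hp.ne_zero x.1.1 key.1
    obtain ⟨w2, hw2⟩ := s41lat_exists_smul_of_cast hp.ne_zero x.2.1 key.2
    have hw1m : w1 ∈ gprHomPE N ℤ := s41lat_mem_of_smul hp0 (hw1 ▸ x.1.2)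
    have hw2m : w2 ∈ gprHomPE N ℤ := s41lat_mem_of_smul hp0 (hw2 ▸ x.2.2)
    exact ⟨(⟨w1, hw1m⟩, ⟨w2, hw2m⟩), Prod.ext (Subtype.ext hw1) (Subtype.ext hw2)⟩
  -- (ii) the vector `(x₀, -ε x₀)`
  have hii : ∃ x : ↥(gprHomPE N ℤ) × ↥(gprHomPE N ℤ), (¬ ∃ z, x = (p : ℤ) • z) ∧
      (∀ i, ∃ z, TX i x - n i • x = (p : ℤ) • z) ∧
      ∃ z, s41topBeta D (s41topAlpha N q x) = (p : ℤ) • z := by
    let X₀ : ↥(gprHomPE N ℤ) := ⟨x₀, hx₀⟩
    refine ⟨(X₀, (-ε) • X₀), ?_, ?_, ?_⟩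
    · rintro ⟨z, hz⟩
      exact hx₀p ⟨z.1.1, congrArg (fun u => (u.1 : ↥(gprHomPE N ℤ)).1) hz⟩
    · intro i
      obtain ⟨z, hz⟩ := hx₀T i.1 i.2.1 i.2.2.1 (hIN i) i.2.2.2.2
      have hzm : z ∈ gprHomPE N ℤ := by
        refine s41lat_mem_of_smul hp0 ?_
        rw [← hz]
        exact (gprHomPE N ℤ).sub_mem (s41hk_comp_mem_homPE _ (fun _ hx => gprT_mem_PE N i.1 hx) hx₀)
          ((gprHomPE N ℤ).zsmul_mem hx₀ _)
      let Z : ↥(gprHomPE N ℤ) := ⟨z, hzm⟩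
      have hZ : s41topT N i.1 X₀ - n i • X₀ = (p : ℤ) • Z := Subtype.ext hz
      refine ⟨(Z, (-ε) • Z), Prod.ext ?_ ?_⟩
      · exact hZ
      · show s41topT N i.1 ((-ε) • X₀) - n i • ((-ε) • X₀) = (p : ℤ) • ((-ε) • Z)
        rw [map_zsmul, smul_comm (n i) (-ε) X₀, ← smul_sub, hZ, smul_comm]
    · obtain ⟨z, hz⟩ := hx₀q
      have hzm : z ∈ gprHomPE N ℤ := by
        refine s41lat_mem_of_smul hp0 ?_
        rw [← hz]
        exact (gprHomPE N ℤ).sub_mem (s41hk_comp_mem_homPE _ (fun _ hx => gprT_mem_PE N q hx) hx₀)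
          ((gprHomPE N ℤ).zsmul_mem hx₀ _)
      let Z : ↥(gprHomPE N ℤ) := ⟨z, hzm⟩
      have hTq : x₀.comp (gprT N q) = (ε * ((q : ℤ) + 1)) • x₀ + (p : ℤ) • z := by
        rw [← hz]; abel
      refine ⟨((-ε) • Z, Z), Prod.ext (Subtype.ext ?_) (Subtype.ext ?_)⟩
      · show (x₀.comp (s41hkA N q) + ((-ε) • x₀).comp (s41hkB N q)).comp D.Va
          = (p : ℤ) • ((-ε) • z)
        have e1 : (x₀.comp (s41hkA N q) + ((-ε) • x₀).comp (s41hkB N q)).comp D.Va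
            = x₀.comp ((s41hkA N q).comp D.Va) + (-ε) • x₀.comp ((s41hkB N q).comp D.Va) := by
          refine AddMonoidHom.ext fun a => ?_
          simp only [AddMonoidHom.comp_apply, AddMonoidHom.add_apply, AddMonoidHom.smul_apply]
        rw [e1, s41hk_A_comp_Va, s41hk_B_comp_Va', hTq]
        refine AddMonoidHom.ext fun a => ?_
        simp only [AddMonoidHom.comp_apply, AddMonoidHom.add_apply, AddMonoidHom.smul_apply,
          AddMonoidHom.id_apply, smul_eq_mul, map_nsmul, nsmul_eq_mul]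
        push_cast
        linear_combination (-(x₀ a) * ((q : ℤ) + 1)) * hε
      · show (x₀.comp (s41hkA N q) + ((-ε) • x₀).comp (s41hkB N q)).comp D.Vb = (p : ℤ) • z
        have e1 : (x₀.comp (s41hkA N q) + ((-ε) • x₀).comp (s41hkB N q)).comp D.Vb
            = x₀.comp ((s41hkA N q).comp D.Vb) + (-ε) • x₀.comp ((s41hkB N q).comp D.Vb) := by
          refine AddMonoidHom.ext fun a => ?_
          simp only [AddMonoidHom.comp_apply, AddMonoidHom.add_apply, AddMonoidHom.smul_apply]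
        rw [e1, s41hk_A_comp_Vb', s41hk_B_comp_Vb, hTq]
        refine AddMonoidHom.ext fun a => ?_
        simp only [AddMonoidHom.comp_apply, AddMonoidHom.add_apply, AddMonoidHom.smul_apply,
          AddMonoidHom.id_apply, smul_eq_mul, map_nsmul, nsmul_eq_mul]
        push_cast
        ring
  obtain ⟨y, hy0, hyp, hyT⟩ := s41as_lattice TX TY hTX hTY (s41topAlpha N q) (s41topBeta D) hα hβ
    (s41topForm2 N) (s41topForm (N * q)) hp hBX hBY hTXadj hTYadj hadj n hi hii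
  refine ⟨y.1, ⟨y.2, ?_⟩, ?_, ?_⟩
  · show D.alphaT ℤ y.1 = 0
    rw [D.alphaT_eq_zero_iff]
    have h1 := congrArg (fun u => (u.1 : ↥(gprHomPE N ℤ)).1) hy0
    have h2 := congrArg (fun u => (u.2 : ↥(gprHomPE N ℤ)).1) hy0
    exact ⟨h1, h2⟩
  · rintro ⟨z, hz⟩
    have hzm : z ∈ gprHomPE (N * q) ℤ := s41lat_mem_of_smul hp0 (hz ▸ y.2)
    exact hyp ⟨⟨z, hzm⟩, Subtype.ext hz⟩
  · intro ℓ h1 h2 h3 h4
    obtain ⟨z, hz⟩ := hyT ⟨ℓ, h1, h2, h3, h4⟩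
    exact ⟨z.1, congrArg Subtype.val hz⟩

end StepB


/-! ## The main theorem -/

/-- **S41, level raising.** -/
theorem s41top_main
    (E : WeierstrassCurve ℚ) [E.IsElliptic] {W : WeierstrassCurve ℤ} (hW : W.IsIntegralModelOf E)
    {p N q' : ℕ} (hp : p.Prime) (hp2 : p ≠ 2) (hN : 0 < N) (hq' : q'.Prime) (hq'N : ¬ q' ∣ N)
    (hq'p : q' ≠ p)
    (hirr : WeierstrassCurve.Affine.Point.GaloisRepIsIrreducible (K := AlgebraicClosure ℚ) ℚ E p)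
    (f : CuspForm (CongruenceSubgroup.Gamma0 N) 2) (𝔪 : Ideal (integralClosure ℤ ℂ))
    (hf : f.IsNormalizedEigenform) (hmax : 𝔪.IsMaximal) (hpm : (p : integralClosure ℤ ℂ) ∈ 𝔪)
    (hcong : ∀ ℓ : ℕ, ℓ.Prime → W.IsGoodPrimeFor ℓ → ¬ ℓ ∣ N → ℓ ≠ p →
      ∃ a : integralClosure ℤ ℂ, (a : ℂ) = ModularFormClass.qCoeff f ℓ ∧
        a - ((W.apOfModel ℓ : ℤ) : integralClosure ℤ ℂ) ∈ 𝔪)
    (hLR : ∃ a : integralClosure ℤ ℂ, (a : ℂ) = ModularFormClass.qCoeff f q' ∧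
      a ^ 2 - ((q' : integralClosure ℤ ℂ) + 1) ^ 2 ∈ 𝔪) :
    ∃ (g : CuspForm (CongruenceSubgroup.Gamma0 (N * q')) 2) (𝔪' : Ideal (integralClosure ℤ ℂ)),
      g.IsNormalizedEigenform ∧ 𝔪'.IsMaximal ∧ (p : integralClosure ℤ ℂ) ∈ 𝔪' ∧
      (∀ ℓ : ℕ, ℓ.Prime → W.IsGoodPrimeFor ℓ → ¬ ℓ ∣ N * q' → ℓ ≠ p →
        ∃ a : integralClosure ℤ ℂ, (a : ℂ) = ModularFormClass.qCoeff g ℓ ∧
          a - ((W.apOfModel ℓ : ℤ) : integralClosure ℤ ℂ) ∈ 𝔪') ∧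
      g.IsNewAt q' := by
  have : NeZero N := ⟨hN.ne'⟩
  have : Fact q'.Prime := ⟨hq'⟩
  obtain ⟨D⟩ := s41hk_exists_AL N q' hq'N
  obtain ⟨ε, x₀, hε, hx₀, hx₀p, hx₀T, hx₀q⟩ :=
    s41top_stepA (W := W) hp hq' hq'N f 𝔪 hf hmax hpm hcong hLR
  obtain ⟨y, hyK, hyp, hyT⟩ :=
    s41top_stepB D E hW hp hp2 hq'N hq'p hirr ε x₀ hε hx₀ hx₀p hx₀T hx₀q
  exact s41top_stepC D W hp y hyK hyp hyT

end Fermat.Agent.S41
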