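import Fermat.Agent.S41.HK.Main
import Fermat.Agent.G.Per.Defs
import Fermat.Agent.S41.ASM.Lattice
import Fermat.Agent.S41.ASM.Lift
import Fermat.Agent.S41.ASM.Descend
import Fermat.Agent.S41.IH.Main
import Fermat.Agent.S41.PD.Bridge

/-!
# S41 (level raising): hub of the package interfaces consumed by the top assembly

Owner: helper24 (S41 chief).  This file used to contain the interface statements as stubs; all of
them are now delivered, and the file only imports the package tops:

* ASM-L `s41as_lattice` (`ASM/Lattice.lean`, helper18), ASM-D `s41as_descend` (`ASM/Descend.lean`,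
  helper16), ASM-U `s41as_lift` (`ASM/Lift.lean`, helper11);
* IH `s41ih_main` (`IH/Main.lean`, helper15; with EIS helper10/helper25, CSP helper10 and leaf owners,
  TR helper15/helper11, NE helper17);
* PD `s41pdbForm`, `s41pdb_add_left`, `s41pdb_add_right`, `s41pdb_nondeg`, `s41pdb_T_adj`,
  `s41pdb_A_adj`, `s41pdb_B_adj` (`PD/Bridge.lean`, helper1, on top of helper9's package PD);
* HK (`HK/Main.lean`, helper1 and leaf owners).

Model: `L_M := gprHomPE M ℤ` (characters of `s16lbAb M = Γ₀(M)^ab` killing the classes with
`tr² ≤ 4`), `X = L_N × L_N`, `Y = L_{Nq}`.  All operators are additive maps between the groups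
`s16lbAb _`, acting on `Hom(_, A)` by precomposition (any coefficient group `A`).
-/
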